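/-
S20 package G4 (helper90): elliptic-point eigenvalue counts for a frame.

For a family `F : ∀ x : X N, ModularForm (Γ0 N) (a x)` of even weights whose matrix of coset
translates `frameMatrix F τ` is invertible at `τ = i` (resp. at `τ = ρ`), the columns are
eigenvectors of the coset permutation of `S⁻¹` (resp. `(S*T)⁻¹`) with eigenvalues `i^(-a x)`
(resp. `ζ₆^(-a x)`); comparing traces gives the counts of weights modulo `4` and modulo `6`.
-/
import Fermat.Agent.S20.Defs

set_option autoImplicit false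

open UpperHalfPlane ModularForm CongruenceSubgroup Matrix.SpecialLinearGroup
open scoped MatrixGroups ModularForm

noncomputable section

namespace Fermat.Agent.S20.H90

section LinAlg

variable {X : Type*} [Fintype X] [DecidableEq X]

/-- If the columns of an invertible matrix `Φ` are eigenvectors of the permutation operator of
`σ` with eigenvalues `ε x`, then `∑ ε x` is the number of fixed points of `σ` (trace identity). -/
theorem sum_eigenvalues_eq_card_fixed (Φ : Matrix X X ℂ) (hΦ : Φ.det ≠ 0) (σ : Equiv.Perm X)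
    (ε : X → ℂ) (h : ∀ c x, Φ (σ c) x = ε x * Φ c x) :
    ∑ x, ε x = ∑ c : X, (if σ c = c then (1 : ℂ) else 0) := by
  set P : Matrix X X ℂ := Matrix.of fun c c' => if c' = σ c then (1 : ℂ) else 0 with hP
  have h1 : P * Φ = Φ * Matrix.diagonal ε := by
    ext c x
    rw [Matrix.mul_diagonal, Matrix.mul_apply]
    simp only [hP, Matrix.of_apply, ite_mul, one_mul, zero_mul, Finset.sum_ite_eq',
      Finset.mem_univ, if_true]
    rw [h c x, mul_comm]
  have hu : IsUnit Φ.det := isUnit_iff_ne_zero.mpr hΦ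
  have h2 : P = Φ * Matrix.diagonal ε * Φ⁻¹ := by
    rw [← h1, Matrix.mul_assoc, Matrix.mul_nonsing_inv _ hu, Matrix.mul_one]
  have h3 : P.trace = ∑ x, ε x := by
    rw [h2, Matrix.trace_mul_cycle, Matrix.nonsing_inv_mul _ hu, Matrix.one_mul,
      Matrix.trace_diagonal]
  rw [← h3, Matrix.trace]
  refine Finset.sum_congr rfl fun c _ => ?_
  simp only [hP, Matrix.diag_apply, Matrix.of_apply, eq_comm]

omit [DecidableEq X] in
lemma natCard_subtype_eq_sum (p : X → Prop) [DecidablePred p] :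
    (Nat.card {x // p x} : ℂ) = ∑ x, (if p x then (1 : ℂ) else 0) := by
  rw [Nat.card_eq_fintype_card, Fintype.card_subtype, Finset.sum_boole]

end LinAlg

/-! ### The elliptic points `i` and `ρ` -/

lemma S_smul_I : ModularGroup.S • UpperHalfPlane.I = UpperHalfPlane.I := by
  rw [modular_S_smul]
  apply UpperHalfPlane.ext
  simp [Complex.inv_I]

/-- The complex number `ρ = -1/2 + (√3/2) i`. -/
def rhoC : ℂ := ⟨-1 / 2, Real.sqrt 3 / 2⟩

lemma rhoC_im_pos : 0 < rhoC.im := by
  simp only [rhoC]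
  positivity

lemma rhoC_sq : rhoC ^ 2 + rhoC + 1 = 0 := by
  have h3 : Real.sqrt 3 * Real.sqrt 3 = 3 := Real.mul_self_sqrt (by norm_num)
  apply Complex.ext
  · simp only [rhoC, pow_two, Complex.add_re, Complex.mul_re, Complex.one_re, Complex.zero_re]
    nlinarith
  · simp only [rhoC, pow_two, Complex.add_im, Complex.mul_im, Complex.one_im, Complex.zero_im]
    ring

/-- The elliptic point `ρ` of order `3`, fixed by `S * T`. -/
def ellRho : ℍ := UpperHalfPlane.mk rhoC rhoC_im_pos

lemma coe_ellRho : (ellRho : ℂ) = rhoC := rfl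

lemma ST_smul_ellRho : (ModularGroup.S * ModularGroup.T) • ellRho = ellRho := by
  rw [mul_smul, modular_T_smul, modular_S_smul]
  apply UpperHalfPlane.ext
  simp only [coe_vadd, coe_ellRho, Complex.ofReal_one]
  have h := rhoC_sq
  rw [inv_eq_iff_eq_inv]
  exact eq_inv_of_mul_eq_one_left (by linear_combination -h)

lemma denom_ST_ellRho :
    denom ((ModularGroup.S * ModularGroup.T : SL(2, ℤ)) : GL (Fin 2) ℝ) ellRho = rhoC + 1 := by
  have h10 : (ModularGroup.S * ModularGroup.T : SL(2, ℤ)) 1 0 = 1 := by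
    rw [Matrix.SpecialLinearGroup.coe_mul]
    simp [ModularGroup.S, ModularGroup.T, Matrix.mul_apply, Fin.sum_univ_two]
  have h11 : (ModularGroup.S * ModularGroup.T : SL(2, ℤ)) 1 1 = 1 := by
    rw [Matrix.SpecialLinearGroup.coe_mul]
    simp [ModularGroup.S, ModularGroup.T, Matrix.mul_apply, Fin.sum_univ_two]
  rw [ModularGroup.denom_apply, coe_ellRho, h10, h11]
  simp

lemma denom_S_I : denom ModularGroup.S UpperHalfPlane.I = Complex.I := by
  rw [ModularGroup.denom_S]
  rfl

variable {N : ℕ} [NeZero N] {a : X N → ℤ}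

/-- Relation between the rows of the frame matrix at a fixed point `τ` of `g`. -/
lemma frameMatrix_inv_smul (F : ∀ x, ModularForm (Γ0 N) (a x)) (g : SL(2, ℤ)) (τ : ℍ)
    (hg : g • τ = τ) (c x : X N) :
    frameMatrix F τ (g⁻¹ • c) x = (denom g τ ^ (a x))⁻¹ * frameMatrix F τ c x := by
  have h := cosetFun_smul_apply (F x) g c τ
  rw [hg] at h
  simp only [frameMatrix, Matrix.of_apply]
  rw [h, ← mul_assoc, inv_mul_cancel₀ (zpow_ne_zero _ (denom_ne_zero g τ)), one_mul]

/-- Number of fixed points of `g` on `X N`, as a sum. -/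
lemma natCard_fixedBy_eq_sum (g : SL(2, ℤ)) :
    (Nat.card (MulAction.fixedBy (X N) g) : ℂ) =
      ∑ c : X N, (if (MulAction.toPerm g⁻¹ : Equiv.Perm (X N)) c = c then (1 : ℂ) else 0) := by
  classical
  rw [← natCard_subtype_eq_sum]
  congr 1
  refine Nat.card_congr (Equiv.subtypeEquivRight fun c => ?_)
  rw [MulAction.mem_fixedBy, MulAction.toPerm_apply, inv_smul_eq_iff, eq_comm]

/-- The trace identity for a frame at a point fixed by `g`. -/
lemma sum_denom_zpow_eq (F : ∀ x, ModularForm (Γ0 N) (a x)) (g : SL(2, ℤ)) (τ : ℍ)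
    (hg : g • τ = τ) (hdet : (frameMatrix F τ).det ≠ 0) :
    ∑ x, (denom g τ ^ (a x))⁻¹ = (Nat.card (MulAction.fixedBy (X N) g) : ℂ) := by
  rw [natCard_fixedBy_eq_sum]
  exact sum_eigenvalues_eq_card_fixed (frameMatrix F τ) hdet (MulAction.toPerm g⁻¹) _
    fun c x => by rw [MulAction.toPerm_apply]; exact frameMatrix_inv_smul F g τ hg c x

/-- G4 at `i`: the number of frame members of weight `≡ 0 mod 4`. -/
theorem count_at_I (F : ∀ x, ModularForm (Γ0 N) (a x)) (heven : ∀ x, Even (a x))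
    (hI : (frameMatrix F UpperHalfPlane.I).det ≠ 0) :
    2 * Nat.card {x : X N // a x % 4 = 0} =
      Nat.card (X N) + Nat.card (MulAction.fixedBy (X N) ModularGroup.S) := by
  have htr := sum_denom_zpow_eq F ModularGroup.S UpperHalfPlane.I S_smul_I hI
  rw [denom_S_I] at htr
  -- eigenvalues
  have hε : ∀ x, (Complex.I ^ (a x))⁻¹ =
      (if a x % 4 = 0 then (1 : ℂ) else 0) - (if a x % 4 = 0 then (0 : ℂ) else 1) := by
    intro x
    obtain ⟨m, hm⟩ := heven x
    obtain ⟨j, rfl | rfl⟩ := Int.even_or_odd' m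
    · have h4 : a x % 4 = 0 := by omega
      have : a x = 4 * j := by omega
      rw [if_pos h4, if_pos h4, this, zpow_mul]
      norm_num [Complex.I_pow_four]
    · have h4 : ¬ a x % 4 = 0 := by omega
      have : a x = 4 * j + 2 := by omega
      rw [if_neg h4, if_neg h4, this, zpow_add₀ Complex.I_ne_zero, zpow_mul]
      norm_num [Complex.I_pow_four]
  have hone : ∀ x : X N, (1 : ℂ) =
      (if a x % 4 = 0 then (1 : ℂ) else 0) + (if a x % 4 = 0 then (0 : ℂ) else 1) := by
    intro x; split_ifs <;> simp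
  have hcard : (Nat.card (X N) : ℂ) = ∑ x : X N, (1 : ℂ) := by
    rw [Nat.card_eq_fintype_card]; simp
  have hn0 := natCard_subtype_eq_sum (X := X N) (fun x => a x % 4 = 0)
  have key : (2 : ℂ) * Nat.card {x : X N // a x % 4 = 0} =
      Nat.card (X N) + Nat.card (MulAction.fixedBy (X N) ModularGroup.S) := by
    rw [← htr, hcard, hn0, Finset.sum_congr rfl fun x _ => hε x,
      Finset.sum_congr rfl fun x _ => hone x, Finset.sum_sub_distrib, Finset.sum_add_distrib]
    ring
  exact_mod_cast key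

lemma rhoC_ne_zero : rhoC ≠ 0 := by
  intro h
  have := rhoC_sq
  rw [h] at this
  norm_num at this

lemma rhoC_zpow_three : rhoC ^ (3 : ℤ) = 1 := by
  rw [show (3 : ℤ) = ((3 : ℕ) : ℤ) from rfl, zpow_natCast]
  linear_combination (rhoC - 1) * rhoC_sq

lemma rhoC_add_one_mul_self : (rhoC + 1) * (rhoC + 1) = rhoC := by
  linear_combination rhoC_sq

lemma rhoC_add_one_ne_zero : rhoC + 1 ≠ 0 := by
  intro h
  have := rhoC_add_one_mul_self
  rw [h, mul_zero] at this
  exact rhoC_ne_zero this.symm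

/-- G4 at `ρ`: the numbers of frame members of weight `≡ 0, 2, 4 mod 6`. -/
theorem count_at_rho (F : ∀ x, ModularForm (Γ0 N) (a x)) (heven : ∀ x, Even (a x))
    (hρ : (frameMatrix F ellRho).det ≠ 0) :
    3 * Nat.card {x : X N // a x % 6 = 0} =
        Nat.card (X N) + 2 * Nat.card (MulAction.fixedBy (X N) (ModularGroup.S * ModularGroup.T)) ∧
    3 * Nat.card {x : X N // a x % 6 = 2} +
        Nat.card (MulAction.fixedBy (X N) (ModularGroup.S * ModularGroup.T)) = Nat.card (X N) ∧
    3 * Nat.card {x : X N // a x % 6 = 4} +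
        Nat.card (MulAction.fixedBy (X N) (ModularGroup.S * ModularGroup.T)) = Nat.card (X N) := by
  have htr := sum_denom_zpow_eq F (ModularGroup.S * ModularGroup.T) ellRho ST_smul_ellRho hρ
  rw [denom_ST_ellRho] at htr
  have hr0 := rhoC_ne_zero
  have hz0 := rhoC_add_one_ne_zero
  have hpow : ∀ m : ℤ, (rhoC + 1) ^ (m + m) = rhoC ^ m := by
    intro m
    rw [zpow_add₀ hz0, ← mul_zpow, rhoC_add_one_mul_self]
  have h3j : ∀ j : ℤ, rhoC ^ (3 * j) = 1 := by
    intro j
    rw [zpow_mul, rhoC_zpow_three, one_zpow]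
  -- eigenvalues
  have hε : ∀ x, ((rhoC + 1) ^ (a x))⁻¹ =
      (if a x % 6 = 0 then (1 : ℂ) else 0) + (if a x % 6 = 2 then (1 : ℂ) else 0) * (-1 - rhoC)
        + (if a x % 6 = 4 then (1 : ℂ) else 0) * rhoC := by
    intro x
    obtain ⟨m, hm⟩ := heven x
    rw [hm, hpow]
    have hcases : m % 3 = 0 ∨ m % 3 = 1 ∨ m % 3 = 2 := by omega
    rcases hcases with h | h | h
    · obtain ⟨j, rfl⟩ : ∃ j, m = 3 * j := ⟨m / 3, by omega⟩
      have e0 : (3 * j + 3 * j) % 6 = 0 := by omega
      have e2 : ¬ (3 * j + 3 * j) % 6 = 2 := by omega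
      have e4 : ¬ (3 * j + 3 * j) % 6 = 4 := by omega
      rw [if_pos e0, if_neg e2, if_neg e4, h3j]
      simp
    · obtain ⟨j, rfl⟩ : ∃ j, m = 3 * j + 1 := ⟨m / 3, by omega⟩
      have e0 : ¬ (3 * j + 1 + (3 * j + 1)) % 6 = 0 := by omega
      have e2 : (3 * j + 1 + (3 * j + 1)) % 6 = 2 := by omega
      have e4 : ¬ (3 * j + 1 + (3 * j + 1)) % 6 = 4 := by omega
      rw [if_neg e0, if_pos e2, if_neg e4, zpow_add₀ hr0, h3j, zpow_one, one_mul, zero_add,
        one_mul, zero_mul, add_zero]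
      exact inv_eq_of_mul_eq_one_right (by linear_combination -rhoC_sq)
    · obtain ⟨j, rfl⟩ : ∃ j, m = 3 * j + 2 := ⟨m / 3, by omega⟩
      have e0 : ¬ (3 * j + 2 + (3 * j + 2)) % 6 = 0 := by omega
      have e2 : ¬ (3 * j + 2 + (3 * j + 2)) % 6 = 2 := by omega
      have e4 : (3 * j + 2 + (3 * j + 2)) % 6 = 4 := by omega
      rw [if_neg e0, if_neg e2, if_pos e4, zpow_add₀ hr0, h3j, one_mul, zero_add, zero_mul,
        zero_add, one_mul, show (2 : ℤ) = ((2 : ℕ) : ℤ) from rfl, zpow_natCast]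
      exact inv_eq_of_mul_eq_one_right (by linear_combination (rhoC - 1) * rhoC_sq)
  have hone : ∀ x : X N, (1 : ℂ) =
      (if a x % 6 = 0 then (1 : ℂ) else 0) + (if a x % 6 = 2 then (1 : ℂ) else 0)
        + (if a x % 6 = 4 then (1 : ℂ) else 0) := by
    intro x
    obtain ⟨m, hm⟩ := heven x
    have hcases : a x % 6 = 0 ∨ a x % 6 = 2 ∨ a x % 6 = 4 := by omega
    rcases hcases with h | h | h <;> simp [h]
  have hcard : (Nat.card (X N) : ℂ) = ∑ x : X N, (1 : ℂ) := by
    rw [Nat.card_eq_fintype_card]; simp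
  have hn0 := natCard_subtype_eq_sum (X := X N) (fun x => a x % 6 = 0)
  have hn2 := natCard_subtype_eq_sum (X := X N) (fun x => a x % 6 = 2)
  have hn4 := natCard_subtype_eq_sum (X := X N) (fun x => a x % 6 = 4)
  set n₀ := Nat.card {x : X N // a x % 6 = 0}
  set n₂ := Nat.card {x : X N // a x % 6 = 2}
  set n₄ := Nat.card {x : X N // a x % 6 = 4}
  set f := Nat.card (MulAction.fixedBy (X N) (ModularGroup.S * ModularGroup.T))
  have key : (n₀ : ℂ) + n₂ * (-1 - rhoC) + n₄ * rhoC = f := by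
    rw [← htr, Finset.sum_congr rfl fun x _ => hε x, Finset.sum_add_distrib,
      Finset.sum_add_distrib, ← Finset.sum_mul, ← Finset.sum_mul, hn0, hn2, hn4]
  have hC : Nat.card (X N) = n₀ + n₂ + n₄ := by
    have : (Nat.card (X N) : ℂ) = n₀ + n₂ + n₄ := by
      rw [hcard, Finset.sum_congr rfl fun x _ => hone x, Finset.sum_add_distrib,
        Finset.sum_add_distrib, hn0, hn2, hn4]
    exact_mod_cast this
  have hs : 0 < Real.sqrt 3 := by positivity
  have him := congrArg Complex.im key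
  have hre := congrArg Complex.re key
  simp only [rhoC, Complex.add_im, Complex.add_re, Complex.mul_im, Complex.mul_re,
    Complex.natCast_im, Complex.natCast_re, Complex.sub_im, Complex.sub_re, Complex.neg_im,
    Complex.neg_re, Complex.one_im, Complex.one_re, zero_mul, add_zero, zero_add,
    sub_zero, neg_zero] at him hre
  have h24 : (n₄ : ℝ) = n₂ := by
    have : ((n₄ : ℝ) - n₂) * Real.sqrt 3 = 0 := by linear_combination 2 * him
    rcases mul_eq_zero.mp this with h | h
    · linarith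
    · exact absurd h hs.ne'
  have h02 : (n₀ : ℝ) = n₂ + f := by
    rw [h24] at hre
    linarith
  have h24' : n₄ = n₂ := by exact_mod_cast h24
  have h02' : n₀ = n₂ + f := by exact_mod_cast h02
  refine ⟨?_, ?_, ?_⟩ <;> omega

end Fermat.Agent.S20.H90
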