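/-
S20 package G1 (helper90): existence of a frame from a finite generating family with at most
`|X N|` members (package D) and local generation on `ℍ` (package F1 / H30.LocalGen).
-/
import Fermat.Agent.S20.FrameLemmas
import Fermat.Agent.S20.H30.LocalGen

set_option autoImplicit false

open UpperHalfPlane ModularForm CongruenceSubgroup Matrix.SpecialLinearGroup Filter
open scoped MatrixGroups ModularForm Manifold Topology

noncomputable section

namespace Fermat.Agent.S20.H90

variable {N : ℕ} [NeZero N]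

/-- A family indexed by the cosets which generates all modular forms on `Γ₀(N)` over the level-one
forms is a frame. -/
theorem isFrame_of_generates {a : X N → ℤ} (F : ∀ x, ModularForm (Γ0 N) (a x))
    (hgen : ∀ (k : ℤ) (f : ModularForm (Γ0 N) k), ∃ r : ∀ x, ModularForm 𝒮ℒ (k - a x),
      ∀ τ, f τ = ∑ x, r x τ * F x τ) : IsFrame a F := by
  refine ⟨fun τ => H30.det_frameMatrix_ne_zero_of_generates F hgen τ, fun k f => ?_⟩
  obtain ⟨r, hr⟩ := hgen k f
  exact ⟨r, fun c τ => cosetFun_eq_sum_of_eq_sum F f r hr c τ⟩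

/-- G1, general form: a generating family `G j`, `j ∈ J`, with `|J| ≤ |X N|` can be reindexed by
the cosets, and is then a frame. -/
theorem exists_frame_of_generates {J : Type*} [Fintype J] {b : J → ℤ}
    (G : ∀ j, ModularForm (Γ0 N) (b j)) (hcard : Fintype.card J ≤ Fintype.card (X N))
    (hgen : ∀ (k : ℤ) (f : ModularForm (Γ0 N) k), ∃ r : ∀ j, ModularForm 𝒮ℒ (k - b j),
      ∀ τ, f τ = ∑ j, r j τ * G j τ) :
    ∃ (e : X N ≃ J), IsFrame (fun x => b (e x)) (fun x => G (e x)) := by
  have hle : Fintype.card (X N) ≤ Fintype.card J := H30.card_le_card_of_generates G hgen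
  obtain ⟨e⟩ : Nonempty (X N ≃ J) := Fintype.card_eq.mp (le_antisymm hle hcard)
  refine ⟨e, isFrame_of_generates _ fun k f => ?_⟩
  obtain ⟨r, hr⟩ := hgen k f
  refine ⟨fun x => r (e x), fun τ => ?_⟩
  rw [hr τ]
  exact (Equiv.sum_comp e fun j => r j τ * G j τ).symm

/-- G1 from the shape of package D (`Fin n`-indexed generators of natural-number weights, at most
`index Γ₀(N)` of them). -/
theorem exists_frame_of_free_basis (N : ℕ) [NeZero N]
    (hD : ∃ (n : ℕ) (wt : Fin n → ℕ) (G : ∀ j, ModularForm (Γ0 N) (wt j)),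
      n ≤ (Gamma0 N).index ∧
      ∀ (k : ℤ) (f : ModularForm (Γ0 N) k), ∃ r : ∀ j, ModularForm 𝒮ℒ (k - wt j),
        ∀ τ, f τ = ∑ j, r j τ * G j τ) :
    ∃ (a : X N → ℤ) (F : ∀ x, ModularForm (Γ0 N) (a x)), IsFrame a F := by
  obtain ⟨n, wt, G, hn, hgen⟩ := hD
  have hcard : Fintype.card (Fin n) ≤ Fintype.card (X N) := by
    rw [Fintype.card_fin, ← Nat.card_eq_fintype_card]
    exact hn
  obtain ⟨e, he⟩ := exists_frame_of_generates (b := fun j => (wt j : ℤ)) G hcard hgen
  exact ⟨_, _, he⟩

end Fermat.Agent.S20.H90
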