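/-
S20 package G1 (helper90), final statement: there is a frame for `Γ₀(N)`.
Assembled from D (H80: free basis from regularity; H33: the regularity/division lemma) and
F1 (H30.LocalGen) through `H90.exists_frame_of_free_basis`.
-/
import Fermat.Agent.S20.H90.Frame
import Fermat.Agent.S20.H80.Concrete
import Fermat.Agent.S20.H33.Regular

set_option autoImplicit false

open UpperHalfPlane ModularForm CongruenceSubgroup Matrix.SpecialLinearGroup Filter
open scoped MatrixGroups ModularForm Manifold Topology

noncomputable section

namespace Fermat.Agent.S20.H90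

/-- G1. There is a frame: `|X N|` generators whose matrix of coset translates is invertible
everywhere. -/
theorem exists_frame (N : ℕ) [NeZero N] :
    ∃ (a : X N → ℤ) (F : ∀ x, ModularForm (Γ0 N) (a x)), IsFrame a F := by
  obtain ⟨n, wt, G, hn, -, hgen, -, -⟩ :=
    H80.exists_free_basis_of_regular N (fun k A B h => H33.exists_div_E₄_E₆ A B h)
  exact exists_frame_of_free_basis N ⟨n, wt, G, hn, hgen⟩

/-- G1 with the extra information carried by the construction: the weights are even and
nonnegative. -/
theorem exists_frame' (N : ℕ) [NeZero N] :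
    ∃ (a : X N → ℤ) (F : ∀ x, ModularForm (Γ0 N) (a x)),
      IsFrame a F ∧ (∀ x, 0 ≤ a x) ∧ (∀ x, Even (a x)) := by
  obtain ⟨n, wt, G, hn, heven, hgen, -, -⟩ :=
    H80.exists_free_basis_of_regular N (fun k A B h => H33.exists_div_E₄_E₆ A B h)
  have hcard : Fintype.card (Fin n) ≤ Fintype.card (X N) := by
    rw [Fintype.card_fin, ← Nat.card_eq_fintype_card]
    exact hn
  obtain ⟨e, he⟩ := exists_frame_of_generates (b := fun j => (wt j : ℤ)) G hcard hgen
  exact ⟨_, _, he, fun x => Int.natCast_nonneg _, fun x => (Int.even_coe_nat _).mpr (heven (e x))⟩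

end Fermat.Agent.S20.H90
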