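/-
S20 package G4 (helper90), consumer-facing form: for a frame (`IsFrame a F`), all weights are even,
and the numbers of weights divisible by `4` / by `6` are given by the fixed points of `S` / `S * T`.
Statements `card_four_dvd`, `card_six_dvd` are exactly those of the interface file
`Fermat/Agent/S20/EllipticCount.lean` of the S20 skeleton.
-/
import Fermat.Agent.S20.Basic
import Fermat.Agent.S20.H90.EllipticCount

set_option autoImplicit false

open UpperHalfPlane ModularForm CongruenceSubgroup Matrix.SpecialLinearGroup Filter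
open scoped MatrixGroups ModularForm Manifold Topology

noncomputable section

namespace Fermat.Agent.S20.H90

variable {N : ℕ} [NeZero N] {a : X N → ℤ} {F : ∀ x, ModularForm (Γ0 N) (a x)}

lemma neg_one_smul_uhp (τ : ℍ) : (-1 : SL(2, ℤ)) • τ = τ := by
  rw [ModularGroup.SL_neg_smul, one_smul]

lemma denom_neg_one (τ : ℍ) : denom ((-1 : SL(2, ℤ)) : GL (Fin 2) ℝ) τ = -1 := by
  rw [ModularGroup.denom_apply]
  simp

/-- The members of a frame have even weight. -/
theorem even_of_isFrame (hF : IsFrame a F) (x : X N) : Even (a x) := by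
  rw [← Int.not_odd_iff_even]
  intro hodd
  refine hF.1 UpperHalfPlane.I (Matrix.det_eq_zero_of_column_eq_zero x fun c => ?_)
  have h := cosetFun_smul_apply (F x) (-1 : SL(2, ℤ)) c UpperHalfPlane.I
  rw [neg_one_smul_uhp, denom_neg_one, hodd.neg_one_zpow, inv_neg, inv_one, neg_one_smul_X] at h
  simp only [frameMatrix, Matrix.of_apply]
  have h2 : (2 : ℂ) * cosetFun (F x) c UpperHalfPlane.I = 0 := by linear_combination h
  exact (mul_eq_zero.mp h2).resolve_left two_ne_zero

/-- G4a. Evaluating a frame at `i`: the weights divisible by `4`. -/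
theorem card_four_dvd (hF : IsFrame a F) :
    2 * (Finset.univ.filter fun x => (4 : ℤ) ∣ a x).card =
      Nat.card (X N) + Nat.card (MulAction.fixedBy (X N) ModularGroup.S) := by
  rw [← count_at_I F (even_of_isFrame hF) (hF.1 _), Nat.card_eq_fintype_card, Fintype.card_subtype]
  congr 2
  refine Finset.filter_congr fun x _ => ?_
  exact Int.dvd_iff_emod_eq_zero

/-- G4b. Evaluating a frame at `ρ`: the weights divisible by `6`. -/
theorem card_six_dvd (hF : IsFrame a F) :
    3 * (Finset.univ.filter fun x => (6 : ℤ) ∣ a x).card =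
      Nat.card (X N) + 2 * Nat.card (MulAction.fixedBy (X N) (ModularGroup.S * ModularGroup.T)) := by
  rw [← (count_at_rho F (even_of_isFrame hF) (hF.1 _)).1, Nat.card_eq_fintype_card,
    Fintype.card_subtype]
  congr 2
  refine Finset.filter_congr fun x _ => ?_
  exact Int.dvd_iff_emod_eq_zero

end Fermat.Agent.S20.H90
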